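/-
Row 38 (RIBET), WALL-p, leaf M6a / I2 — FORMAL CORE (helper376): logarithmic derivative of the
Kronecker norm.

For a field `k` containing a primitive `ℓ`-th root of unity and `h ∈ k((q))` with `θ h = g · h`
(`θ = q d/dq`):

    θ (kronNorm ℓ h) = (ℓ · V_ℓ g + U_ℓ g) · kronNorm ℓ h,

i.e. `dlog (Nm_α (β h)) = T_ℓ (dlog h)` with the weight-2 Hecke operator
`T_ℓ : c_n ↦ c_{nℓ} + ℓ c_{n/ℓ}` on `q`-series.  Consequently, if
`kronNorm ℓ h = c · h ^ a · G ^ p` in characteristic `p` (the reduction of the identity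
`Nm_α (β f) = c f^{a_ℓ} G^p`, which holds for the Kummer function `f` of a `T_ℓ`-eigenclass of
`J₀(N)[p]` with eigenvalue `a_ℓ`), then `T_ℓ g = a · g`.

Mathlib + `S37/H400` (Kronecker norm) + `S18/H602` (Leibniz rule for `d/dq`) only.
-/
import Fermat.Agent.S37.H400.KronBridge
import Fermat.Agent.S18.H602.LaurentDeriv

set_option autoImplicit false
set_option maxHeartbeats 400000

noncomputable section

namespace Fermat.Agent.Ribet.H376

open HahnSeries ModularCurve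
open Fermat.Agent.S37 Fermat.Agent.S18.H602

section Theta

variable {k : Type*} [CommRing k]

/-- `θ = q d/dq` on `k((q))`. -/
def thetaL (f : LaurentSeries k) : LaurentSeries k := single (1 : ℤ) (1 : k) * dq f

@[simp]
theorem thetaL_coeff (f : LaurentSeries k) (n : ℤ) :
    (thetaL f).coeff n = (n : k) * f.coeff n := by
  rw [thetaL, coeff_single_mul, one_mul, dq_coeff]
  simp

theorem thetaL_add (f g : LaurentSeries k) : thetaL (f + g) = thetaL f + thetaL g := by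
  ext n
  simp [mul_add]

theorem thetaL_zero : thetaL (0 : LaurentSeries k) = 0 := by
  ext n
  simp

theorem thetaL_mul (f g : LaurentSeries k) :
    thetaL (f * g) = thetaL f * g + f * thetaL g := by
  rw [thetaL, thetaL, thetaL, dq_mul]
  ring

theorem thetaL_C (c : k) : thetaL (C c : LaurentSeries k) = 0 := by
  rw [thetaL, dq_C, mul_zero]

theorem thetaL_one : thetaL (1 : LaurentSeries k) = 0 := by
  rw [thetaL, dq_one, mul_zero]

theorem thetaL_pow (f : LaurentSeries k) (n : ℕ) :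
    thetaL (f ^ (n + 1)) = ((n + 1 : ℕ) : LaurentSeries k) * f ^ n * thetaL f := by
  induction n with
  | zero => simp
  | succ n ih =>
    rw [pow_succ, thetaL_mul, ih]
    push_cast
    ring

theorem thetaL_qExpand (ℓ : ℕ) [NeZero ℓ] (f : LaurentSeries k) :
    thetaL (qExpand k ℓ f) = C (ℓ : k) * qExpand k ℓ (thetaL f) := by
  ext n
  rw [thetaL_coeff, C_mul_eq_smul, coeff_smul, smul_eq_mul]
  by_cases hn : (ℓ : ℤ) ∣ n
  · obtain ⟨m, rfl⟩ := hn
    rw [qExpand_coeff_mul, qExpand_coeff_mul, thetaL_coeff]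
    push_cast
    ring
  · rw [qExpand_coeff_of_not_dvd ℓ _ hn, qExpand_coeff_of_not_dvd ℓ _ hn, mul_zero, mul_zero]

theorem thetaL_tw (ℓ : ℕ) (ζ : k) (f : LaurentSeries k) :
    thetaL (H340.tw ℓ ζ f) = H340.tw ℓ ζ (thetaL f) := by
  ext n
  rw [thetaL_coeff, H340.tw_coeff, H340.tw_coeff, thetaL_coeff]
  ring

end Theta

section Dlog

variable {k : Type*} [CommRing k]

/-- `g` is a logarithmic derivative of `h`: `θ h = g · h`. -/
def IsDlogL (h g : LaurentSeries k) : Prop := thetaL h = g * h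

theorem isDlogL_iff (h g : LaurentSeries k) :
    IsDlogL h g ↔ ∀ n : ℤ, (g * h).coeff n = (n : k) * h.coeff n := by
  unfold IsDlogL
  constructor
  · intro H n
    rw [← H, thetaL_coeff]
  · intro H
    ext n
    rw [thetaL_coeff, H n]

theorem isDlogL_one : IsDlogL (1 : LaurentSeries k) 0 := by
  rw [IsDlogL, thetaL_one, zero_mul]

theorem isDlogL_C (c : k) : IsDlogL (C c : LaurentSeries k) 0 := by
  rw [IsDlogL, thetaL_C, zero_mul]

theorem isDlogL_mul {h₁ h₂ g₁ g₂ : LaurentSeries k} (H₁ : IsDlogL h₁ g₁)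
    (H₂ : IsDlogL h₂ g₂) : IsDlogL (h₁ * h₂) (g₁ + g₂) := by
  unfold IsDlogL at *
  rw [thetaL_mul, H₁, H₂]
  ring

theorem isDlogL_prod {ι : Type*} (s : Finset ι) (h g : ι → LaurentSeries k)
    (H : ∀ i ∈ s, IsDlogL (h i) (g i)) : IsDlogL (∏ i ∈ s, h i) (∑ i ∈ s, g i) := by
  classical
  induction s using Finset.induction_on with
  | empty => simpa using (isDlogL_one (k := k))
  | insert a s ha ih =>
    rw [Finset.prod_insert ha, Finset.sum_insert ha]
    exact isDlogL_mul (H a (Finset.mem_insert_self a s))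
      (ih fun i hi => H i (Finset.mem_insert_of_mem hi))

theorem isDlogL_pow {h g : LaurentSeries k} (H : IsDlogL h g) (n : ℕ) :
    IsDlogL (h ^ n) ((n : LaurentSeries k) * g) := by
  induction n with
  | zero => simpa using (isDlogL_one (k := k))
  | succ n ih =>
    rw [pow_succ]
    have := isDlogL_mul ih H
    convert this using 1
    push_cast
    ring

theorem isDlogL_qExpand {h g : LaurentSeries k} (H : IsDlogL h g) (ℓ : ℕ) [NeZero ℓ] :
    IsDlogL (qExpand k ℓ h) (C (ℓ : k) * qExpand k ℓ g) := by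
  unfold IsDlogL at *
  rw [thetaL_qExpand, H, map_mul]
  ring

theorem isDlogL_tw {h g : LaurentSeries k} (H : IsDlogL h g) {ℓ : ℕ} [NeZero ℓ] {ζ : k}
    (hζ : ζ ^ ℓ = 1) : IsDlogL (H340.tw ℓ ζ h) (H340.tw ℓ ζ g) := by
  unfold IsDlogL at *
  rw [thetaL_tw, H, H340.tw_mul hζ]

/-- In characteristic `p`, `p`-th powers have logarithmic derivative `0`. -/
theorem isDlogL_pow_char (p : ℕ) [CharP k p] (hp : p ≠ 0) (G : LaurentSeries k) :
    IsDlogL (G ^ p) 0 := by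
  obtain ⟨n, rfl⟩ : ∃ n, p = n + 1 := ⟨p - 1, by omega⟩
  rw [IsDlogL, thetaL_pow, zero_mul]
  have h0 : ((n + 1 : ℕ) : LaurentSeries k) = 0 := by
    have h1 : ((n + 1 : ℕ) : k) = 0 := CharP.cast_eq_zero k (n + 1)
    have h2 : ((n + 1 : ℕ) : LaurentSeries k) = C ((n + 1 : ℕ) : k) := by
      rw [map_natCast]
    rw [h2, h1, map_zero]
  rw [h0, zero_mul, zero_mul]

end Dlog


section Hecke

variable {k : Type*} [CommRing k]

/-- The weight-2 Hecke operator `T_ℓ = ℓ V_ℓ + U_ℓ` on `q`-series: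
`c_n ↦ c_{nℓ} + ℓ c_{n/ℓ}`. -/
def heckeL (ℓ : ℕ) [NeZero ℓ] (g : LaurentSeries k) : LaurentSeries k :=
  C (ℓ : k) * qExpand k ℓ g + H400.secL ℓ 0 g

theorem heckeL_coeff_mul (ℓ : ℕ) [NeZero ℓ] (g : LaurentSeries k) (m : ℤ) :
    (heckeL ℓ g).coeff ((ℓ : ℤ) * m) = (ℓ : k) * g.coeff m + g.coeff ((ℓ : ℤ) * ((ℓ : ℤ) * m)) := by
  rw [heckeL, coeff_add, C_mul_eq_smul, coeff_smul, smul_eq_mul, qExpand_coeff_mul,
    H400.secL_coeff, add_zero]

theorem heckeL_coeff_of_not_dvd (ℓ : ℕ) [NeZero ℓ] (g : LaurentSeries k) {n : ℤ}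
    (hn : ¬ (ℓ : ℤ) ∣ n) : (heckeL ℓ g).coeff n = g.coeff ((ℓ : ℤ) * n) := by
  rw [heckeL, coeff_add, C_mul_eq_smul, coeff_smul, smul_eq_mul,
    qExpand_coeff_of_not_dvd ℓ _ hn, mul_zero, zero_add, H400.secL_coeff, add_zero]

/-- Sum of the twists by all `ℓ`-th roots of unity. -/
theorem sum_tw_eq [IsDomain k] (ℓ : ℕ) [NeZero ℓ] {ζ : k} (hζ : IsPrimitiveRoot ζ ℓ)
    (g : LaurentSeries k) :
    ∑ b : Fin ℓ, H340.tw ℓ (ζ ^ (b : ℕ)) g = C (ℓ : k) * qExpand k ℓ (H400.secL ℓ 0 g) := by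
  ext n
  rw [coeff_sum, C_mul_eq_smul, coeff_smul, smul_eq_mul]
  simp only [H340.tw_coeff]
  rw [← Finset.sum_mul]
  have hℓ0 : (0 : ℤ) < (ℓ : ℤ) := by exact_mod_cast Nat.pos_of_ne_zero (NeZero.ne ℓ)
  have hsum : ∑ b : Fin ℓ, H340.zpw ℓ (ζ ^ (b : ℕ)) n =
      ∑ b ∈ Finset.range ℓ, (ζ ^ (n % (ℓ : ℤ)).toNat) ^ b := by
    rw [Finset.sum_range]
    refine Finset.sum_congr rfl fun b _ => ?_
    unfold H340.zpw
    rw [← pow_mul, ← pow_mul, mul_comm]
  by_cases hn : (ℓ : ℤ) ∣ n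
  · obtain ⟨m, rfl⟩ := hn
    rw [qExpand_coeff_mul, H400.secL_coeff, add_zero, hsum]
    have hr : ((ℓ : ℤ) * m % (ℓ : ℤ)).toNat = 0 := by simp
    rw [hr]
    simp
  · rw [qExpand_coeff_of_not_dvd ℓ _ hn, mul_zero, hsum]
    set r := (n % (ℓ : ℤ)).toNat with hr
    have hr0 : 0 < r := by
      have h1 : 0 ≤ n % (ℓ : ℤ) := Int.emod_nonneg n hℓ0.ne'
      have h2 : n % (ℓ : ℤ) ≠ 0 := fun h => hn (Int.dvd_of_emod_eq_zero h)
      omega
    have hrℓ : r < ℓ := by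
      have h1 : n % (ℓ : ℤ) < (ℓ : ℤ) := Int.emod_lt_of_pos n hℓ0
      omega
    have hne : ζ ^ r ≠ 1 := hζ.pow_ne_one_of_pos_of_lt hr0.ne' hrℓ
    have hgeom : (∑ b ∈ Finset.range ℓ, (ζ ^ r) ^ b) * (ζ ^ r - 1) = 0 := by
      rw [geom_sum_mul, ← pow_mul, mul_comm, pow_mul, hζ.pow_eq_one, one_pow, sub_self]
    rcases mul_eq_zero.mp hgeom with h | h
    · rw [h, zero_mul]
    · exact absurd (sub_eq_zero.mp h) hne

/-- **Logarithmic derivative of the Kronecker norm**: `dlog (kronNorm ℓ h) = T_ℓ (dlog h)`. -/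
theorem isDlogL_kronNorm [IsDomain k] {ℓ : ℕ} [NeZero ℓ] {ζ : k} (hζ : IsPrimitiveRoot ζ ℓ)
    (hℓk : (ℓ : k) ≠ 0) {h g : LaurentSeries k} (H : IsDlogL h g) :
    IsDlogL (H400.kronNorm ℓ h) (heckeL ℓ g) := by
  have hE := H400.qExpand_kronNorm_eq_prod ℓ hζ h
  have h1 : IsDlogL (qExpand k ℓ (qExpand k ℓ h) * ∏ b : Fin ℓ, H340.tw ℓ (ζ ^ (b : ℕ)) h)
      (C (ℓ : k) * qExpand k ℓ (C (ℓ : k) * qExpand k ℓ g) +
        ∑ b : Fin ℓ, H340.tw ℓ (ζ ^ (b : ℕ)) g) :=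
    isDlogL_mul (isDlogL_qExpand (isDlogL_qExpand H ℓ) ℓ)
      (isDlogL_prod Finset.univ _ _ fun b _ =>
        isDlogL_tw H (H340.pow_pow_eq_one hζ.pow_eq_one (b : ℕ)))
  rw [← hE, sum_tw_eq ℓ hζ] at h1
  unfold IsDlogL at h1 ⊢
  rw [thetaL_qExpand] at h1
  have h2 : C (ℓ : k) * qExpand k ℓ (thetaL (H400.kronNorm ℓ h)) =
      C (ℓ : k) * qExpand k ℓ (heckeL ℓ g * H400.kronNorm ℓ h) := by
    rw [h1, heckeL]
    simp only [map_mul, map_add, qExpand_C]
    ring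
  have hC : (C (ℓ : k) : LaurentSeries k) ≠ 0 := by
    intro h0
    exact hℓk (HahnSeries.C_injective (by rw [h0, map_zero]))
  exact qExpand_injective (R := k) (N := ℓ) (mul_left_cancel₀ hC h2)

end Hecke


section Field

variable {k : Type*} [Field k]

theorem isDlogL_unique {h g g' : LaurentSeries k} (h0 : h ≠ 0) (H : IsDlogL h g)
    (H' : IsDlogL h g') : g = g' := by
  unfold IsDlogL at H H'
  exact mul_right_cancel₀ h0 (H.symm.trans H')

theorem isDlogL_inv {h g : LaurentSeries k} (h0 : h ≠ 0) (H : IsDlogL h g) :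
    IsDlogL h⁻¹ (-g) := by
  unfold IsDlogL at *
  have h1 : thetaL (h * h⁻¹) = 0 := by rw [mul_inv_cancel₀ h0, thetaL_one]
  rw [thetaL_mul, H] at h1
  have h2 : h * (thetaL h⁻¹ + g * h⁻¹) = 0 := by linear_combination h1
  have h3 := (mul_eq_zero.mp h2).resolve_left h0
  linear_combination h3

theorem isDlogL_zpow {h g : LaurentSeries k} (h0 : h ≠ 0) (H : IsDlogL h g) (a : ℤ) :
    IsDlogL (h ^ a) (C (a : k) * g) := by
  have hC : ∀ n : ℕ, (C ((n : ℤ) : k) : LaurentSeries k) = (n : LaurentSeries k) := by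
    intro n
    rw [Int.cast_natCast, map_natCast]
  cases a with
  | ofNat n =>
    rw [Int.ofNat_eq_natCast, zpow_natCast, hC]
    exact isDlogL_pow H n
  | negSucc n =>
    rw [zpow_negSucc]
    have h1 := isDlogL_inv (pow_ne_zero (n + 1) h0) (isDlogL_pow H (n + 1))
    convert h1 using 1
    rw [Int.cast_negSucc, map_neg, map_natCast]
    ring

/-- **Eigen-relation from the norm identity.**  If `h ≠ 0` has logarithmic derivative `g` and
`kronNorm ℓ h = c · h ^ a · G ^ p` in characteristic `p`, then `T_ℓ g = a · g`. -/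
theorem heckeL_eq_of_kronNorm_eq (p : ℕ) [CharP k p] (hp : p ≠ 0) {ℓ : ℕ} [NeZero ℓ] {ζ : k}
    (hζ : IsPrimitiveRoot ζ ℓ) (hℓk : (ℓ : k) ≠ 0) {h g : LaurentSeries k} (h0 : h ≠ 0)
    (H : IsDlogL h g) (a : ℤ) (c : k) (G : LaurentSeries k)
    (hK : H400.kronNorm ℓ h = C c * h ^ a * G ^ p) :
    heckeL ℓ g = C (a : k) * g := by
  have h1 : IsDlogL (H400.kronNorm ℓ h) (heckeL ℓ g) := isDlogL_kronNorm hζ hℓk H
  have h2 : IsDlogL (C c * h ^ a * G ^ p) (0 + C (a : k) * g + 0) :=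
    isDlogL_mul (isDlogL_mul (isDlogL_C c) (isDlogL_zpow h0 H a)) (isDlogL_pow_char p hp G)
  rw [← hK, zero_add, add_zero] at h2
  have hN : H400.kronNorm ℓ h ≠ 0 := by
    intro hz
    have hE := H400.qExpand_kronNorm_eq_prod ℓ hζ h
    rw [hz, map_zero] at hE
    have hV : qExpand k ℓ (qExpand k ℓ h) ≠ 0 := fun hh =>
      h0 (qExpand_injective (R := k) (N := ℓ)
        (qExpand_injective (R := k) (N := ℓ) (by rw [hh, map_zero, map_zero])))
    have hP : ∏ b : Fin ℓ, H340.tw ℓ (ζ ^ (b : ℕ)) h ≠ 0 := by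
      refine Finset.prod_ne_zero_iff.mpr fun b _ htw => h0 ?_
      ext n
      have := congrArg (fun x : LaurentSeries k => x.coeff n) htw
      simp only [H340.tw_coeff, coeff_zero] at this
      rcases mul_eq_zero.mp this with hzz | hzz
      · exfalso
        unfold H340.zpw at hzz
        exact pow_ne_zero _ (pow_ne_zero _ (hζ.ne_zero (NeZero.ne ℓ))) hzz
      · simpa using hzz
    exact (mul_ne_zero hV hP) hE.symm
  exact isDlogL_unique hN h1 h2

end Field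

end Fermat.Agent.Ribet.H376
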