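/-
Row 38 (RIBET), WALL-p, leaf M6a / I2 (helper376): the eigen-relation for `dlog` of a reduction,
in the vocabulary of `Ribet/H764/I3Spec.lean` (`IsDlog`, `IsEigenSeries`).

If `h ∈ k((q))`, `h ≠ 0`, `char k = p`, `θ h = g · h` with `g ∈ k⟦q⟧`, and for every prime
`ℓ ∤ M`, `ℓ ∉ S` the Kronecker norm satisfies `kronNorm ℓ h = c · h ^ (a ℓ) · G ^ p`
(reduction of `Nm_α (β f) = c f^{a_ℓ} G^p`), then `g` is a `T_ℓ`-eigen-series with eigenvalues `a ℓ`.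
-/
import Fermat.Agent.Ribet.H376.DlogKron
import Fermat.Agent.Ribet.H764.I3Spec

set_option autoImplicit false
set_option maxHeartbeats 400000

noncomputable section

namespace Fermat.Agent.Ribet.H376

open HahnSeries ModularCurve
open Fermat.Agent.S37 Fermat.Agent.Ribet.H764

variable {k : Type} [Field k]

theorem isDlogL_of_isDlog {h : LaurentSeries k} {g : PowerSeries k} (H : I3.IsDlog h g) :
    IsDlogL h (ofPowerSeries ℤ k g) := by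
  unfold IsDlogL
  ext n
  rw [thetaL_coeff]
  exact (H n).symm

theorem isDlog_of_isDlogL {h : LaurentSeries k} {g : PowerSeries k}
    (H : IsDlogL h (ofPowerSeries ℤ k g)) : I3.IsDlog h g := by
  intro n
  unfold IsDlogL at H
  rw [← H, thetaL_coeff]

/-- One prime: the coefficient relation `c_{nℓ} + ℓ c_{n/ℓ} = a c_n`. -/
theorem coeff_eigen_of_kronNorm_eq (p : ℕ) [CharP k p] (hp : p ≠ 0) {ℓ : ℕ} [NeZero ℓ] {ζ : k}
    (hζ : IsPrimitiveRoot ζ ℓ) (hℓk : (ℓ : k) ≠ 0) {h : LaurentSeries k} (h0 : h ≠ 0)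
    {g : PowerSeries k} (H : I3.IsDlog h g) (a : ℤ) (c : k) (G : LaurentSeries k)
    (hK : H400.kronNorm ℓ h = C c * h ^ a * G ^ p) (n : ℕ) :
    PowerSeries.coeff (n * ℓ) g + (if ℓ ∣ n then (ℓ : k) * PowerSeries.coeff (n / ℓ) g else 0) =
      (a : k) * PowerSeries.coeff n g := by
  have hT := heckeL_eq_of_kronNorm_eq p hp hζ hℓk h0 (isDlogL_of_isDlog H) a c G hK
  have hc := congrArg (fun x : LaurentSeries k => x.coeff (n : ℤ)) hT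
  simp only [C_mul_eq_smul, coeff_smul, smul_eq_mul] at hc
  have hcoe : ∀ m : ℕ, (ofPowerSeries ℤ k g).coeff (m : ℤ) = PowerSeries.coeff m g := by
    intro m
    rw [ofPowerSeries_apply_coeff]
  rw [hcoe] at hc
  rw [← hc]
  by_cases hn : ℓ ∣ n
  · obtain ⟨m, rfl⟩ := hn
    rw [if_pos (Dvd.intro m rfl), Nat.mul_div_cancel_left m (Nat.pos_of_ne_zero (NeZero.ne ℓ))]
    have h1 := heckeL_coeff_mul ℓ (ofPowerSeries ℤ k g) (m : ℤ)
    have e1 : ((ℓ * m : ℕ) : ℤ) = (ℓ : ℤ) * (m : ℤ) := by push_cast; ring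
    have e2 : (ℓ : ℤ) * ((ℓ : ℤ) * (m : ℤ)) = ((ℓ * m * ℓ : ℕ) : ℤ) := by push_cast; ring
    rw [e1, h1, hcoe, e2, hcoe]
    ring
  · rw [if_neg hn, add_zero]
    have hn' : ¬ (ℓ : ℤ) ∣ (n : ℤ) := fun hd => hn (Int.natCast_dvd_natCast.mp hd)
    rw [heckeL_coeff_of_not_dvd ℓ _ hn']
    have e2 : (ℓ : ℤ) * (n : ℤ) = ((n * ℓ : ℕ) : ℤ) := by push_cast; ring
    rw [e2, hcoe]

/-- **I2 → I3 bridge.**  `dlog` of the reduction of the Kummer function of an eigenclass is an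
eigen-series: hypothesis = the reduced norm identities `kronNorm ℓ h = c · h ^ (a ℓ) · G ^ p`
for the primes `ℓ ∤ M`, `ℓ ∉ S` (`p ∈ S`). -/
theorem isEigenSeries_of_kronNorm (p : ℕ) [CharP k p] [IsAlgClosed k] (hp : p.Prime) (M : ℕ)
    (S : Finset ℕ) (hpS : p ∈ S) (a : ℕ → ℤ) {h : LaurentSeries k} (h0 : h ≠ 0)
    {g : PowerSeries k} (H : I3.IsDlog h g)
    (hK : ∀ ℓ : ℕ, ℓ.Prime → ¬ ℓ ∣ M → ℓ ∉ S → ∀ _ : NeZero ℓ,
      ∃ (c : k) (G : LaurentSeries k), H400.kronNorm ℓ h = C c * h ^ (a ℓ) * G ^ p) :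
    I3.IsEigenSeries M S a g := by
  intro ℓ hℓ hℓM hℓS n
  haveI : NeZero ℓ := ⟨hℓ.ne_zero⟩
  have hℓp : ℓ ≠ p := fun h => hℓS (h ▸ hpS)
  have hℓk : (ℓ : k) ≠ 0 := by
    intro h1
    have h2 : p ∣ ℓ := (CharP.cast_eq_zero_iff k p ℓ).mp h1
    exact hℓp ((Nat.prime_dvd_prime_iff_eq hp hℓ).mp h2).symm
  haveI : NeZero (ℓ : k) := ⟨hℓk⟩
  obtain ⟨ζ, hζ⟩ := HasEnoughRootsOfUnity.exists_primitiveRoot k ℓ
  obtain ⟨c, G, hG⟩ := hK ℓ hℓ hℓM hℓS ⟨hℓ.ne_zero⟩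
  exact coeff_eigen_of_kronNorm_eq p hp.ne_zero hζ hℓk h0 H (a ℓ) c G hG n

end Fermat.Agent.Ribet.H376
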