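/-
Row 38 (RIBET), WALL-p, leaf I2 (`H944/I2Spec.lean`, wall architect helper944): the leaves
FRICKE-HECKE, HECKE-RED and DLOG-KNORM, VERBATIM  (helper376).

* `frickeHecke : H944.I2.FrickeHeckeStatement`   (from `H376.wF_heckeNorm`);
* `heckeRed    : H944.I2.HeckeRedStatement`      (from `H376.isRedInf_heckeNorm`, any `A`);
* `dlogKnorm   : H944.I2.DlogKnormStatement`     (from `H376.coeff_eigen_of_kronNorm_eq`).
-/
import Fermat.Agent.Ribet.H944.I2Spec
import Fermat.Agent.Ribet.H376.HeckeFricke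
import Fermat.Agent.Ribet.H376.DlogEigen

set_option autoImplicit false
set_option maxHeartbeats 400000
set_option linter.style.haveILetI false

noncomputable section

namespace Fermat.Agent.Ribet.H376

open HahnSeries ModularCurve AlgebraicCurve
open Fermat.Agent.S24 Fermat.Agent.S37 Fermat.Agent.A2.H708 Fermat.Agent.A2.H528
open Fermat.Agent.Ribet.H884 Fermat.Agent.Ribet.H944

/-- The two formal Kronecker norms on main agree. -/
theorem knorm_eq_kronNorm {R : Type*} [CommRing R] (ℓ : ℕ) [NeZero ℓ] (f : LaurentSeries R) :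
    H697.knorm ℓ f = H400.kronNorm ℓ f := by
  rw [H400.kronNorm, H400.secMat_eq_kronMat]
  rfl

/-- The two Hecke norms on main agree. -/
theorem hNorm_eq_heckeNorm (N ℓ : ℕ) [NeZero N] [NeZero ℓ] (f : FF N) :
    I2.hNorm N ℓ f = S29.H222.heckeNorm N ℓ f := rfl

/-- The Kronecker norm of a nonzero series over a field is nonzero (`ℓ` prime). -/
theorem kronNorm_ne_zero_of_field {k : Type*} [Field k] {ℓ : ℕ} [NeZero ℓ] (hℓ : ℓ.Prime)
    {h : LaurentSeries k} (h0 : h ≠ 0) : H400.kronNorm ℓ h ≠ 0 := by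
  by_cases hc : (ℓ : k) = 0
  · haveI : Fact ℓ.Prime := ⟨hℓ⟩
    haveI : CharP k ℓ := (CharP.charP_iff_prime_eq_zero hℓ).mpr hc
    have h1 := H400.coeffMap_kronNorm_ne_zero (R := k) (S := k) ℓ (RingHom.id k) h
      (by rw [coeffMap_id]; exact h0)
    rwa [coeffMap_id] at h1
  · let ι : k →+* AlgebraicClosure k := algebraMap k (AlgebraicClosure k)
    have hι : Function.Injective ι := (algebraMap k (AlgebraicClosure k)).injective
    have hℓK : ((ℓ : ℕ) : AlgebraicClosure k) ≠ 0 := by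
      intro h1
      apply hc
      apply hι
      rw [map_natCast, map_zero]
      exact h1
    haveI : NeZero ((ℓ : ℕ) : AlgebraicClosure k) := ⟨hℓK⟩
    obtain ⟨ζ, hζ⟩ := HasEnoughRootsOfUnity.exists_primitiveRoot (AlgebraicClosure k) ℓ
    have h1 : coeffMap ι h ≠ 0 := fun hz =>
      h0 (Fermat.Agent.S18.H602.coeffMap_injective ι hι (by rw [hz, map_zero]))
    have h2 := kronNorm_ne_zero ℓ hζ h1
    rw [← H400.coeffMap_kronNorm] at h2
    intro hz
    apply h2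
    rw [hz, map_zero]

/-- **M6a, `∞`-component, any valuation ring `A`.** -/
theorem isRedInf_heckeNorm' (N ℓ : ℕ) [NeZero N] [NeZero ℓ] (hℓ : ℓ.Prime) (hℓN : ¬ ℓ ∣ N)
    (A : ValuationSubring Kbar) {f : FF N} {r : LaurentSeries (kA A)} (h : IsRedInf N A f r) :
    IsRedInf N A (S29.H222.heckeNorm N ℓ f) (H400.kronNorm ℓ r) := by
  obtain ⟨c, U₁, U₂, hc, h1, h2, hf, hr⟩ := h
  have hred : ∀ U : LaurentSeries A, red A (H400.kronNorm ℓ U) = H400.kronNorm ℓ (red A U) :=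
    fun U => H400.coeffMap_kronNorm _ ℓ U
  have hincl : ∀ U : LaurentSeries A,
      incl A (H400.kronNorm ℓ U) = H400.kronNorm ℓ (incl A U) :=
    fun U => H400.coeffMap_kronNorm _ ℓ U
  refine ⟨c ^ (ℓ + 1), H400.kronNorm ℓ U₁, H400.kronNorm ℓ U₂, pow_ne_zero _ hc, ?_, ?_, ?_, ?_⟩
  · rw [hred]
    exact kronNorm_ne_zero_of_field hℓ h1
  · rw [hred]
    exact kronNorm_ne_zero_of_field hℓ h2
  · have hN : ((S29.H222.heckeNorm N ℓ f : FF N) : LaurentSeries Kbar) =
        H400.kronNorm ℓ (f : LaurentSeries Kbar) := S37.H157.node_normid N ℓ hℓ hℓN f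
    have hcst : ∀ d : Kbar, (cst d : LaurentSeries Kbar) = C d :=
      fun d => Fermat.Agent.S18.H602.algebraMap_eq_C d
    rw [hN, hincl, hincl, ← H400.kronNorm_mul, hf, H400.kronNorm_mul, hcst, hcst, kronNorm_C]
  · rw [hred, hred, ← H400.kronNorm_mul, hr]

/-- **FRICKE-HECKE**, verbatim. -/
theorem frickeHecke : I2.FrickeHeckeStatement := by
  intro N ℓ _ _ hℓ hℓN f
  rw [hNorm_eq_heckeNorm, hNorm_eq_heckeNorm]
  exact (wF_heckeNorm hℓ hℓN f).symm

/-- **HECKE-RED**, verbatim. -/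
theorem heckeRed : I2.HeckeRedStatement := by
  intro N ℓ _ _ hℓ hℓN A f r h
  rw [hNorm_eq_heckeNorm, knorm_eq_kronNorm]
  exact isRedInf_heckeNorm' N ℓ hℓ hℓN A h

/-- **DLOG-KNORM**, verbatim. -/
theorem dlogKnorm : I2.DlogKnormStatement := by
  intro k _ _ p _ hp ℓ _ hℓ hℓp h G g a c h0 _ _ hg hK n
  have hℓk : (ℓ : k) ≠ 0 := by
    intro h1
    have h2 : p ∣ ℓ := (CharP.cast_eq_zero_iff k p ℓ).mp h1
    exact hℓp ((Nat.prime_dvd_prime_iff_eq hp hℓ).mp h2).symm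
  haveI : NeZero (ℓ : k) := ⟨hℓk⟩
  obtain ⟨ζ, hζ⟩ := HasEnoughRootsOfUnity.exists_primitiveRoot k ℓ
  rw [knorm_eq_kronNorm] at hK
  exact coeff_eigen_of_kronNorm_eq p hp.ne_zero hζ hℓk h0 hg a c G hK n

end Fermat.Agent.Ribet.H376
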