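/-
Row 38 (RIBET), WALL-p, leaf I2 = DLOG: `H884.DlogOutStatement` CLOSED (assembly, helper376).

`dlogOut := H944.I2.dlogOut_of` applied to the landed leaves:
CLOSED (`H944.I2.finClosed`), RES (`H939.resField`), REDEX/REDUNIQ (`H997`), KUMEIG
(`H944.I2.kumEig`), FRICKE-HECKE, HECKE-RED, DLOG-KNORM (`H376`), DLOG-EX (`H944.I2.dlogEx`).
-/
import Fermat.Agent.Ribet.H376.I2Leaves
import Fermat.Agent.Ribet.H944.Closed
import Fermat.Agent.Ribet.H944.KumEig
import Fermat.Agent.Ribet.H944.DlogEx
import Fermat.Agent.Ribet.H939.ResField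
import Fermat.Agent.Ribet.H997.RedBasic

set_option autoImplicit false

namespace Fermat.Agent.Ribet.H376

open Fermat.Agent.Ribet

/-- **I2 (DLOG) closed**: `H884.DlogOutStatement`. -/
theorem dlogOut : H884.DlogOutStatement :=
  H944.I2.dlogOut_of H944.I2.finClosed H939.resField H997.redExists H997.redUnique
    H944.I2.kumEig frickeHecke heckeRed dlogKnorm H944.I2.dlogEx

end Fermat.Agent.Ribet.H376
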