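/-
Row 38 (RIBET), WALL-p, MOD_p leaf M6a (helper376): the Fricke involution commutes with the
Hecke norm, and the `T_ℓ`-compatibility of the reductions on the `0`-component.

* `wF_alphaBar`, `wF_betaBar` : `w_{Nℓ} ∘ α = β ∘ w_N`, `w_{Nℓ} ∘ β = α ∘ w_N` over `ℚ̄`;
* `wF_heckeNorm`   : `w_N (Nm_α (β f)) = Nm_α (β (w_N f))`  (`ℓ ∤ N` prime);
* `isRedZero_heckeNorm` : `IsRedZero N A f r ⟹ IsRedZero N A (heckeNorm N ℓ f) (kronNorm ℓ r)`.
-/
import Fermat.Agent.Ribet.H376.HeckeRedInf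
import Fermat.Agent.S37.H88.ALSwap
import Fermat.Agent.A2.Mod.H751.Fricke

set_option autoImplicit false
set_option maxHeartbeats 400000
set_option linter.style.haveILetI false

noncomputable section

namespace Fermat.Agent.Ribet.H376

open HahnSeries ModularCurve AlgebraicCurve
open Fermat.Agent.S24 Fermat.Agent.S37 Fermat.Agent.A2.H708 Fermat.Agent.A2.H528
open Fermat.Agent.Ribet.H884

section Compat

variable (N ℓ : ℕ) [NeZero N] [NeZero ℓ]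

theorem jK_eq_jFd (d : ℕ) [NeZero d] (hd : d ∣ N) :
    Fermat.Agent.A2.Mod.H751.jK Kbar N d hd = jFd N d hd := by
  apply Subtype.ext
  rw [coe_jFd]
  rfl

theorem jFd_congr {d d' : ℕ} [NeZero d] [NeZero d'] (h : d = d') (hd : d ∣ N) (hd' : d' ∣ N) :
    jFd N d hd = jFd N d' hd' := by
  apply Subtype.ext
  rw [coe_jFd, coe_jFd]
  subst h
  rfl

theorem alphaBar_jFd (d : ℕ) [NeZero d] (hd : d ∣ N) :
    heckeAlphaBar Kbar N ℓ (jFd N d hd) = jFd (N * ℓ) d (hd.trans (dvd_mul_right N ℓ)) := by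
  apply Subtype.ext
  rw [coe_heckeAlphaBar, coe_jFd, coe_jFd]

theorem betaBar_jFd (d : ℕ) [NeZero d] (hd : d ∣ N) :
    heckeBetaBar Kbar N ℓ (jFd N d hd) =
      jFd (N * ℓ) (ℓ * d) (by rw [mul_comm N ℓ]; exact mul_dvd_mul_left ℓ hd) := by
  apply Subtype.ext
  rw [coe_heckeBetaBar, coe_jFd, coe_jFd, coeffEmb, ← ModularCurve.coeffMap_qExpand,
    qExpand_qExpand]

/-- `w_{Nℓ} ∘ α = β ∘ w_N`. -/
theorem wF_alphaBar (f : FF N) :
    wF (N * ℓ) (heckeAlphaBar Kbar N ℓ f) = heckeBetaBar Kbar N ℓ (wF N f) := by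
  have hN0 : 0 < N := Nat.pos_of_ne_zero (NeZero.ne N)
  refine Fermat.Agent.A2.Mod.H751.ringHom_ext_FE (K := Kbar) N
    (((wF (N * ℓ) : FF (N * ℓ) ≃ₐ[Kbar] FF (N * ℓ)) : FF (N * ℓ) →+* FF (N * ℓ)).comp
      (heckeAlphaBar Kbar N ℓ : FF N →+* FF (N * ℓ)))
    ((heckeBetaBar Kbar N ℓ : FF N →+* FF (N * ℓ)).comp
      ((wF N : FF N ≃ₐ[Kbar] FF N) : FF N →+* FF N)) ?_ ?_ f
  · intro e
    show wF (N * ℓ) (heckeAlphaBar Kbar N ℓ (algebraMap Kbar _ e)) =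
      heckeBetaBar Kbar N ℓ (wF N (algebraMap Kbar _ e))
    rw [AlgHom.commutes, AlgEquiv.commutes, AlgEquiv.commutes, AlgHom.commutes]
  · intro d _ hd
    rw [jK_eq_jFd]
    show wF (N * ℓ) (heckeAlphaBar Kbar N ℓ (jFd N d hd)) =
      heckeBetaBar Kbar N ℓ (wF N (jFd N d hd))
    have hd0 : 0 < d := Nat.pos_of_dvd_of_pos hd hN0
    haveI : NeZero (N / d) := neZero_div N hd
    haveI : NeZero (N * ℓ / d) := neZero_div (N * ℓ) (hd.trans (dvd_mul_right N ℓ))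
    rw [alphaBar_jFd, wF_jFd, wF_jFd, betaBar_jFd]
    refine jFd_congr (N * ℓ) ?_ _ _
    rw [mul_comm N ℓ, Nat.mul_div_assoc ℓ hd]

/-- `w_{Nℓ} ∘ β = α ∘ w_N`. -/
theorem wF_betaBar (f : FF N) :
    wF (N * ℓ) (heckeBetaBar Kbar N ℓ f) = heckeAlphaBar Kbar N ℓ (wF N f) := by
  have h := wF_alphaBar N ℓ (wF N f)
  rw [wF_wF] at h
  rw [← h, wF_wF]

end Compat

section Norm

variable (N ℓ : ℕ) [NeZero N] [NeZero ℓ]

/-- The transposed Hecke norm `Nm_β (α y)`. -/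
def heckeNormT (y : FF N) : FF N :=
  letI := algebraAlong (heckeBetaBar Kbar N ℓ)
  Algebra.norm (FF N) (heckeAlphaBar Kbar N ℓ y)

/-- `w_N (Nm_α (β f)) = Nm_β (α (w_N f))`. -/
theorem wF_heckeNorm_eq_heckeNormT (f : FF N) :
    wF N (S29.H222.heckeNorm N ℓ f) = heckeNormT N ℓ (wF N f) := by
  have he : RingHom.comp
      (@algebraMap (FF N) (FF (N * ℓ)) _ _ (algebraAlong (heckeBetaBar Kbar N ℓ)))
      ((wF N).toRingEquiv : FF N →+* FF N) =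
      RingHom.comp ((wF (N * ℓ)).toRingEquiv : FF (N * ℓ) →+* FF (N * ℓ))
        (@algebraMap (FF N) (FF (N * ℓ)) _ _ (algebraAlong (heckeAlphaBar Kbar N ℓ))) := by
    ext x : 1
    exact (wF_alphaBar N ℓ x).symm
  have h := @Algebra.norm_eq_of_equiv_equiv (FF N) (FF (N * ℓ)) (FF N) (FF (N * ℓ)) _ _ _ _
    (algebraAlong (heckeAlphaBar Kbar N ℓ)) (algebraAlong (heckeBetaBar Kbar N ℓ))
    (wF N).toRingEquiv (wF (N * ℓ)).toRingEquiv he (heckeBetaBar Kbar N ℓ f)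
  have h2 : (wF N).toRingEquiv (S29.H222.heckeNorm N ℓ f) =
      @Algebra.norm (FF N) (FF (N * ℓ)) _ _ (algebraAlong (heckeBetaBar Kbar N ℓ))
        ((wF (N * ℓ)).toRingEquiv (heckeBetaBar Kbar N ℓ f)) := by
    have h3 : S29.H222.heckeNorm N ℓ f =
        @Algebra.norm (FF N) (FF (N * ℓ)) _ _ (algebraAlong (heckeAlphaBar Kbar N ℓ))
          (heckeBetaBar Kbar N ℓ f) := rfl
    rw [h3, h, RingEquiv.apply_symm_apply]
  have h4 : (wF (N * ℓ)).toRingEquiv (heckeBetaBar Kbar N ℓ f) =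
      heckeAlphaBar Kbar N ℓ (wF N f) := wF_betaBar N ℓ f
  rw [h4] at h2
  exact h2

variable {N ℓ}

/-- The Atkin–Lehner swap at `ℓ` is an involution. -/
theorem swap_swap (hℓ : ℓ.Prime) (hℓN : ¬ ℓ ∣ N) (w : FF (N * ℓ) →+* FF (N * ℓ))
    (hwα : ∀ a : FF N, w (heckeAlphaBar Kbar N ℓ a) = heckeBetaBar Kbar N ℓ a)
    (hwβ : ∀ a : FF N, w (heckeBetaBar Kbar N ℓ a) = heckeAlphaBar Kbar N ℓ a) :
    ∀ x : FF (N * ℓ), w (w x) = x := by
  refine Fermat.Agent.A2.Mod.H751.ringHom_ext_FE (K := Kbar) (N * ℓ) (w.comp w)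
    (RingHom.id _) ?_ ?_
  · intro e
    show w (w (algebraMap Kbar _ e)) = algebraMap Kbar _ e
    have h1 : algebraMap Kbar (FF (N * ℓ)) e = heckeAlphaBar Kbar N ℓ (algebraMap Kbar _ e) :=
      (AlgHom.commutes _ e).symm
    have h2 : algebraMap Kbar (FF (N * ℓ)) e = heckeBetaBar Kbar N ℓ (algebraMap Kbar _ e) :=
      (AlgHom.commutes _ e).symm
    rw [h1, hwα, hwβ]
  · intro d _ hd
    rw [jK_eq_jFd]
    show w (w (jFd (N * ℓ) d hd)) = jFd (N * ℓ) d hd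
    by_cases hℓd : ℓ ∣ d
    · obtain ⟨d', rfl⟩ := hℓd
      have hd' : d' ∣ N := by
        rw [mul_comm N ℓ] at hd
        exact Nat.dvd_of_mul_dvd_mul_left hℓ.pos hd
      haveI : NeZero d' := ⟨fun h => by subst h; exact (NeZero.ne (ℓ * 0)) (mul_zero ℓ)⟩
      have h1 : jFd (N * ℓ) (ℓ * d') hd = heckeBetaBar Kbar N ℓ (jFd N d' hd') :=
        (betaBar_jFd N ℓ d' hd').symm
      rw [h1, hwβ, hwα]
    · have hd' : d ∣ N :=
        (Nat.Coprime.dvd_of_dvd_mul_right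
          ((Nat.coprime_comm.mp ((Nat.Prime.coprime_iff_not_dvd hℓ).mpr hℓd))) hd)
      have h1 : jFd (N * ℓ) d hd = heckeAlphaBar Kbar N ℓ (jFd N d hd') :=
        (alphaBar_jFd N ℓ d hd').symm
      rw [h1, hwα, hwβ]

/-- `Nm_β (α g) = Nm_α (β g)`: the Hecke correspondence `T_ℓ` is symmetric (`ℓ ∤ N` prime). -/
theorem heckeNormT_eq_heckeNorm (hℓ : ℓ.Prime) (hℓN : ¬ ℓ ∣ N) (g : FF N) :
    heckeNormT N ℓ g = S29.H222.heckeNorm N ℓ g := by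
  obtain ⟨w, hwα, hwβ⟩ := Fermat.Agent.S37.H88.exists_swap_bar (N := N) (ℓ := ℓ) hℓ hℓN
  have hww := swap_swap hℓ hℓN w hwα hwβ
  let e : FF (N * ℓ) ≃+* FF (N * ℓ) :=
    RingEquiv.ofRingHom w w (RingHom.ext hww) (RingHom.ext hww)
  have he : RingHom.comp
      (@algebraMap (FF N) (FF (N * ℓ)) _ _ (algebraAlong (heckeAlphaBar Kbar N ℓ)))
      ((RingEquiv.refl (FF N)) : FF N →+* FF N) =
      RingHom.comp (e : FF (N * ℓ) →+* FF (N * ℓ))
        (@algebraMap (FF N) (FF (N * ℓ)) _ _ (algebraAlong (heckeBetaBar Kbar N ℓ))) := by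
    ext x : 1
    exact (hwβ x).symm
  have h := @Algebra.norm_eq_of_equiv_equiv (FF N) (FF (N * ℓ)) (FF N) (FF (N * ℓ)) _ _ _ _
    (algebraAlong (heckeBetaBar Kbar N ℓ)) (algebraAlong (heckeAlphaBar Kbar N ℓ))
    (RingEquiv.refl (FF N)) e he (heckeAlphaBar Kbar N ℓ g)
  have h3 : heckeNormT N ℓ g =
      @Algebra.norm (FF N) (FF (N * ℓ)) _ _ (algebraAlong (heckeBetaBar Kbar N ℓ))
        (heckeAlphaBar Kbar N ℓ g) := rfl
  have h4 : e (heckeAlphaBar Kbar N ℓ g) = heckeBetaBar Kbar N ℓ g := hwα g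
  rw [h3, h, h4]
  rfl

/-- **The Fricke involution commutes with the Hecke norm.** -/
theorem wF_heckeNorm (hℓ : ℓ.Prime) (hℓN : ¬ ℓ ∣ N) (f : FF N) :
    wF N (S29.H222.heckeNorm N ℓ f) = S29.H222.heckeNorm N ℓ (wF N f) := by
  rw [wF_heckeNorm_eq_heckeNormT, heckeNormT_eq_heckeNorm hℓ hℓN]

/-- **M6a, `0`-component.** -/
theorem isRedZero_heckeNorm (hℓ : ℓ.Prime) (hℓN : ¬ ℓ ∣ N)
    (A : ValuationSubring Kbar) {ζ : kA A} (hζ : IsPrimitiveRoot ζ ℓ)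
    {f : FF N} {r : LaurentSeries (kA A)} (h : IsRedZero N A f r) :
    IsRedZero N A (S29.H222.heckeNorm N ℓ f) (H400.kronNorm ℓ r) := by
  unfold IsRedZero at h ⊢
  rw [wF_heckeNorm hℓ hℓN]
  exact isRedInf_heckeNorm N ℓ hℓ hℓN A hζ h

end Norm

end Fermat.Agent.Ribet.H376
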