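/-
Row 38 (RIBET), WALL-p, W-EIS leaf HECKE-NODE (`H884/EisSpec.lean`): ASSEMBLY  (helper376).

`heckeNodeGen_of_pdivKnorm : PDivKnormStatement → H884.HeckeNodeGenStatement`, where the core

* `PDivKnormStatement` : for `k` algebraically closed of characteristic `p`, `ℓ ≠ p` prime,
  `p ∤ M`, `ℓ ∤ M`:  `PDivFin p M r → PDivFin p M (kronNorm ℓ r)`

is the characteristic-`p` statement "the function-level Hecke operator at level `M` preserves
`p`-divisibility of the orders away from the cusps".  The reductions of `g` are `kronNorm ℓ rᵢ`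
by `H376.isRedInf_heckeNorm'` / `H376.isRedZero_heckeNorm` (M6a).
-/
import Fermat.Agent.Ribet.H884.EisSpec
import Fermat.Agent.Ribet.H376.I2Leaves
import Fermat.Agent.Ribet.H939.ResField

set_option autoImplicit false
set_option maxHeartbeats 400000
set_option linter.style.haveILetI false

noncomputable section

namespace Fermat.Agent.Ribet.H376

open HahnSeries ModularCurve AlgebraicCurve
open Fermat.Agent.S24 Fermat.Agent.S37 Fermat.Agent.A2.H708 Fermat.Agent.A2.H528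
open Fermat.Agent.Ribet.H884

/-- **PDIV-KNORM** (characteristic-`p` core of HECKE-NODE): the formal Kronecker norm at `ℓ`
preserves "`r ∈ k(X₀(M))ˣ` with `p ∣ ord_Q r` at every non-cuspidal place". -/
def PDivKnormStatement : Prop :=
  ∀ (k : Type) [Field k] [IsAlgClosed k] (p M ℓ : ℕ) [NeZero M] [NeZero ℓ] [CharP k p],
    p.Prime → ℓ.Prime → ℓ ≠ p → ¬ p ∣ M → ¬ ℓ ∣ M →
    ∀ r : LaurentSeries k, PDivFin p M r → PDivFin p M (H400.kronNorm ℓ r)

/-- **HECKE-NODE from PDIV-KNORM.** -/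
theorem heckeNodeGen_of_pdivKnorm (hcore : PDivKnormStatement) : HeckeNodeGenStatement := by
  intro p M' _ _ _ hp hpM A hA ℓ _ hℓN f g hg hNG
  obtain ⟨r₁, r₂, h1, h2, h3, h4⟩ := hNG
  obtain ⟨hAC, hCh⟩ := Fermat.Agent.Ribet.H939.resField p hp A hA
  haveI := hAC
  haveI := hCh
  have hℓ : (ℓ : ℕ).Prime := ℓ.2
  have hℓp : (ℓ : ℕ) ≠ p := fun h => hℓN (h ▸ dvd_mul_right _ _)
  have hℓM : ¬ (ℓ : ℕ) ∣ M' := fun h => hℓN (h.mul_left p)
  have hℓk : ((ℓ : ℕ) : kA A) ≠ 0 := by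
    intro h0
    have h5 := (CharP.cast_eq_zero_iff (kA A) p (ℓ : ℕ)).mp h0
    exact hℓp ((Nat.prime_dvd_prime_iff_eq hp hℓ).mp h5).symm
  haveI : NeZero ((ℓ : ℕ) : kA A) := ⟨hℓk⟩
  obtain ⟨ζ, hζ⟩ := HasEnoughRootsOfUnity.exists_primitiveRoot (kA A) (ℓ : ℕ)
  have hgN : g = S29.H222.heckeNorm (p * M') (ℓ : ℕ) f := by
    apply Subtype.ext
    rw [hg]
    exact (S37.H157.node_normid (p * M') (ℓ : ℕ) hℓ hℓN f).symm
  refine ⟨H400.kronNorm (ℓ : ℕ) r₁, H400.kronNorm (ℓ : ℕ) r₂, ?_, ?_, ?_, ?_⟩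
  · rw [hgN]
    exact isRedInf_heckeNorm' (p * M') (ℓ : ℕ) hℓ hℓN A h1
  · rw [hgN]
    exact isRedZero_heckeNorm hℓ hℓN A hζ h2
  · exact hcore (kA A) p M' (ℓ : ℕ) hp hℓ hℓp hpM hℓM r₁ h3
  · exact hcore (kA A) p M' (ℓ : ℕ) hp hℓ hℓp hpM hℓM r₂ h4

end Fermat.Agent.Ribet.H376
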