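/-
Row 38 (RIBET), WALL-p, MOD_p leaf M6a (helper376): `T_ℓ`-compatibility of the reductions on the
`∞`-component, in the vocabulary of `Ribet/H884/SlopeSpec.lean`.

For `ℓ ∤ N` prime and `f ∈ FF N = ℚ̄(X₀(N))`:

    IsRedInf N A f r  ⟹  IsRedInf N A (heckeNorm N ℓ f) (kronNorm ℓ r),

`heckeNorm N ℓ f = Nm_α (β f)` (the Kummer generator of `T_ℓ x` if `f` is one of `x`).
Proof: NORM-ID (`S37.H157.node_normid`) + multiplicativity and base change of `kronNorm`.
-/
import Fermat.Agent.Ribet.H884.SlopeSpec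
import Fermat.Agent.S37.H157.NodeNormId
import Fermat.Agent.S29.H222.ESKSpec
import Fermat.Agent.Ribet.H376.DlogKron

set_option autoImplicit false
set_option maxHeartbeats 400000

noncomputable section

namespace Fermat.Agent.Ribet.H376

open HahnSeries ModularCurve
open Fermat.Agent.S24 Fermat.Agent.S37 Fermat.Agent.A2.H708 Fermat.Agent.Ribet.H884

section Kron

variable {R : Type*} [CommRing R]

/-- The Kronecker norm of a constant. -/
theorem kronNorm_C (ℓ : ℕ) [NeZero ℓ] (c : R) :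
    H400.kronNorm ℓ (C c : LaurentSeries R) = C (c ^ (ℓ + 1)) := by
  have h2 : H400.secMat ℓ (C c : LaurentSeries R) = Matrix.scalar (Fin ℓ) (C c) := by
    have := H400.secMat_qExpand ℓ (C c : LaurentSeries R)
    rwa [qExpand_C] at this
  rw [H400.kronNorm, qExpand_C, h2, Matrix.scalar_apply, Matrix.det_diagonal,
    Finset.prod_const, Finset.card_univ, Fintype.card_fin, ← pow_succ', map_pow]

/-- The Kronecker norm of a nonzero series over a domain with a primitive `ℓ`-th root of unity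
is nonzero. -/
theorem kronNorm_ne_zero [IsDomain R] (ℓ : ℕ) [NeZero ℓ] {ζ : R} (hζ : IsPrimitiveRoot ζ ℓ)
    {h : LaurentSeries R} (h0 : h ≠ 0) : H400.kronNorm ℓ h ≠ 0 := by
  intro hz
  have hE := H400.qExpand_kronNorm_eq_prod ℓ hζ h
  rw [hz, map_zero] at hE
  have hV : qExpand R ℓ (qExpand R ℓ h) ≠ 0 := fun hh =>
    h0 (qExpand_injective (R := R) (N := ℓ)
      (qExpand_injective (R := R) (N := ℓ) (by rw [hh, map_zero, map_zero])))
  have hP : ∏ b : Fin ℓ, H340.tw ℓ (ζ ^ (b : ℕ)) h ≠ 0 := by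
    refine Finset.prod_ne_zero_iff.mpr fun b _ htw => h0 ?_
    ext n
    have := congrArg (fun x : LaurentSeries R => x.coeff n) htw
    simp only [H340.tw_coeff, coeff_zero] at this
    rcases mul_eq_zero.mp this with hzz | hzz
    · exfalso
      unfold H340.zpw at hzz
      exact pow_ne_zero _ (pow_ne_zero _ (hζ.ne_zero (NeZero.ne ℓ))) hzz
    · simpa using hzz
  exact (mul_ne_zero hV hP) hE.symm

end Kron

/-- **M6a, `∞`-component.**  The reduction of `Nm_α (β f)` is the Kronecker norm of the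
reduction of `f`. -/
theorem isRedInf_heckeNorm (N ℓ : ℕ) [NeZero N] [NeZero ℓ] (hℓ : ℓ.Prime) (hℓN : ¬ ℓ ∣ N)
    (A : ValuationSubring Kbar) {ζ : kA A} (hζ : IsPrimitiveRoot ζ ℓ)
    {f : FF N} {r : LaurentSeries (kA A)} (h : IsRedInf N A f r) :
    IsRedInf N A (S29.H222.heckeNorm N ℓ f) (H400.kronNorm ℓ r) := by
  obtain ⟨c, U₁, U₂, hc, h1, h2, hf, hr⟩ := h
  have hred : ∀ U : LaurentSeries A, red A (H400.kronNorm ℓ U) = H400.kronNorm ℓ (red A U) :=
    fun U => H400.coeffMap_kronNorm _ ℓ U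
  have hincl : ∀ U : LaurentSeries A,
      incl A (H400.kronNorm ℓ U) = H400.kronNorm ℓ (incl A U) :=
    fun U => H400.coeffMap_kronNorm _ ℓ U
  refine ⟨c ^ (ℓ + 1), H400.kronNorm ℓ U₁, H400.kronNorm ℓ U₂, pow_ne_zero _ hc, ?_, ?_, ?_, ?_⟩
  · rw [hred]
    exact kronNorm_ne_zero ℓ hζ h1
  · rw [hred]
    exact kronNorm_ne_zero ℓ hζ h2
  · have hN : ((S29.H222.heckeNorm N ℓ f : FF N) : LaurentSeries Kbar) =
        H400.kronNorm ℓ (f : LaurentSeries Kbar) := S37.H157.node_normid N ℓ hℓ hℓN f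
    have hcst : ∀ d : Kbar, (cst d : LaurentSeries Kbar) = C d :=
      fun d => Fermat.Agent.S18.H602.algebraMap_eq_C d
    rw [hN, hincl, hincl, ← H400.kronNorm_mul, hf, H400.kronNorm_mul, hcst, hcst, kronNorm_C]
  · rw [hred, hred, ← H400.kronNorm_mul, hr]

end Fermat.Agent.Ribet.H376
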