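/-
Row 38 (RIBET), WALL-p, W-EIS leaf HECKE-NODE, core part 1 (helper376):
NORM-ID IN ANY CHARACTERISTIC prime to `N ℓ`.

Port of `S37.H157.norm_betaHom_eq_kronNorm` (characteristic `0`) to an arbitrary field `K` in
which the primes dividing `N * ℓ` are invertible: for a prime `ℓ ∤ N`, `F = K(X₀(N))`,
`F' = K(X₀(Nℓ))` (as subfields of `K((q))`),

* `isSeparable_algIncl` : `F' / F` is separable (it has `ℓ + 1 = [F' : F]` distinct embeddings);
* `finrank_algInclC`    : `[F' : F] = ℓ + 1`;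
* `norm_betaHom_eq_kronNormC` : `N_{F'/F}(y(q^ℓ)) = kronNorm ℓ y`.
-/
import Fermat.Agent.S37.H157.NormKron

set_option autoImplicit false
set_option maxHeartbeats 400000
set_option linter.style.haveILetI false
set_option linter.unusedSectionVars false

noncomputable section

namespace Fermat.Agent.Ribet.H376

open ModularCurve HahnSeries Polynomial IntermediateField
open Fermat.Agent.S28.H626 Fermat.Agent.S37.H157

/-- A finite field extension `E / F` of degree `n` with `n` pairwise distinct ring embeddings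
into a field `Ω`, all restricting to the same `ι : F →+* Ω`, is separable. -/
theorem isSeparable_of_embeddings {F E Ω : Type*} [Field F] [Field E] [Field Ω] [Algebra F E]
    [FiniteDimensional F E]
    (ι : F →+* Ω) {n : ℕ} (hn : Module.finrank F E = n) (σ : Fin n → (E →+* Ω))
    (hσ : ∀ i (a : F), σ i (algebraMap F E a) = ι a) (hinj : Function.Injective σ) :
    Algebra.IsSeparable F E := by
  classical
  letI : Algebra F (AlgebraicClosure Ω) := ((algebraMap Ω (AlgebraicClosure Ω)).comp ι).toAlgebra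
  have halg : ∀ a : F, algebraMap F (AlgebraicClosure Ω) a
      = algebraMap Ω (AlgebraicClosure Ω) (ι a) := fun a => rfl
  let τ : Fin n → (E →ₐ[F] AlgebraicClosure Ω) := fun i =>
    { toRingHom := (algebraMap Ω (AlgebraicClosure Ω)).comp (σ i)
      commutes' := fun a => by
        show algebraMap Ω (AlgebraicClosure Ω) (σ i (algebraMap F E a)) = _
        rw [hσ i a, halg] }
  have hτ : ∀ i (y : E), τ i y = algebraMap Ω (AlgebraicClosure Ω) (σ i y) := fun i y => rfl
  have hτinj : Function.Injective τ := by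
    intro i j hij
    apply hinj
    ext y
    have := congrArg (fun f : E →ₐ[F] AlgebraicClosure Ω => f y) hij
    simp only [hτ] at this
    exact (algebraMap Ω (AlgebraicClosure Ω)).injective this
  have h1 : Field.finSepDegree F E = Nat.card (E →ₐ[F] AlgebraicClosure Ω) :=
    Field.finSepDegree_eq_of_isAlgClosed F E (AlgebraicClosure Ω)
  have h2 : n ≤ Nat.card (E →ₐ[F] AlgebraicClosure Ω) := by
    have := Nat.card_le_card_of_injective τ hτinj
    simpa using this
  have h3 : Field.finSepDegree F E ≤ Module.finrank F E := Field.finSepDegree_le_finrank F E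
  exact (Field.finSepDegree_eq_finrank_iff F E).mp (le_antisymm h3 (by rw [hn, h1]; exact h2))

section Discharge

variable (K : Type*) [Field K]

/-- `HasModPolys` over a field in which the primes dividing `M` are invertible. -/
theorem hasModPolysC (M : ℕ) (hchar : ∀ r : ℕ, r.Prime → r ∣ M → (r : K) ≠ 0) :
    HasModPolys K M :=
  Fermat.Agent.S28.H867.hasModPolys K M
    (fun p hp _ _ => Fermat.Agent.S28.H807.nonempty_modPolyData p hp) hchar

/-- `[K(X₀(Nℓ)) : K(X₀(N))] = ℓ + 1` for a prime `ℓ ∤ N`, the primes dividing `N ℓ` being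
invertible in `K`. -/
theorem finrank_algInclC (N ℓ : ℕ) [NeZero N] [NeZero ℓ] (hℓ : ℓ.Prime) (hℓN : ¬ ℓ ∣ N)
    (hchar : ∀ r : ℕ, r.Prime → r ∣ N * ℓ → (r : K) ≠ 0) :
    @Module.finrank ↥(modularFunctionFieldFullC K N)
      ↥(modularFunctionFieldFullC K (N * ℓ)) _ _ (algIncl K N ℓ).toModule = ℓ + 1 := by
  have h := Fermat.Agent.S28.H988.relfinrank_full_mul_prime K N ℓ (NeZero.ne N) hℓ hchar
  rw [if_neg hℓN, relfinrank_eq_finrank_of_le (full_le_full_mul K N ℓ)] at h
  rw [← h]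
  letI := algIncl K N ℓ
  let e : ↥(modularFunctionFieldFullC K (N * ℓ)) ≃ₗ[↥(modularFunctionFieldFullC K N)]
      ↥(extendScalars (full_le_full_mul K N ℓ)) :=
    { toFun := fun x => ⟨x.1, x.2⟩
      invFun := fun y => ⟨y.1, y.2⟩
      map_add' := fun _ _ => rfl
      map_smul' := fun _ _ => rfl
      left_inv := fun _ => rfl
      right_inv := fun _ => rfl }
  exact e.finrank_eq

end Discharge

section Main

variable {K : Type*} [Field K] {N ℓ : ℕ} [NeZero N] [NeZero ℓ]

/-- `F' / F` is finite. -/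
theorem finiteDimensional_algIncl
    (hfin : @Module.finrank ↥(modularFunctionFieldFullC K N)
      ↥(modularFunctionFieldFullC K (N * ℓ)) _ _ (algIncl K N ℓ).toModule = ℓ + 1) :
    @FiniteDimensional ↥(modularFunctionFieldFullC K N)
      ↥(modularFunctionFieldFullC K (N * ℓ)) _ _ (algIncl K N ℓ).toModule := by
  letI := algIncl K N ℓ
  exact Module.finite_of_finrank_pos (by rw [hfin]; omega)

/-- `F' / F` is separable, in any characteristic prime to `N ℓ`. -/
theorem isSeparable_algIncl_of (hℓ : ℓ.Prime) (hℓN : ¬ ℓ ∣ N)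
    (H : HasModPolys K (N * ℓ)) (ζ : Kˣ) (hζ : IsPrimitiveRoot ζ ℓ)
    (hfin : @Module.finrank ↥(modularFunctionFieldFullC K N)
      ↥(modularFunctionFieldFullC K (N * ℓ)) _ _ (algIncl K N ℓ).toModule = ℓ + 1) :
    @Algebra.IsSeparable ↥(modularFunctionFieldFullC K N)
      ↥(modularFunctionFieldFullC K (N * ℓ)) _ _ (algIncl K N ℓ) := by
  obtain ⟨-, Φ, hΦ⟩ := H ℓ hℓ (Dvd.intro_left N rfl)
  letI := algIncl K N ℓ
  haveI : FiniteDimensional ↥(modularFunctionFieldFullC K N)
      ↥(modularFunctionFieldFullC K (N * ℓ)) := finiteDimensional_algIncl hfin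
  exact isSeparable_of_embeddings (baseHom K N ℓ) hfin
    (embFamily hℓ hℓN H hΦ (natDegree_minpoly_jdl hℓ hℓN H hΦ hfin) ζ)
    (fun i a => embFamily_algebraMap hℓ hℓN H hΦ _ ζ hζ.pow_eq_one i a)
    (embFamily_injective hℓ hℓN H hΦ _ ζ hζ)

/-- **Norm formula, general element** (any characteristic prime to `N ℓ`). -/
theorem norm_eq_swapC {Φ : Polynomial (Polynomial ℤ)} (hℓ : ℓ.Prime) (hℓN : ¬ ℓ ∣ N)
    (H : HasModPolys K (N * ℓ)) (hΦ : IsModPoly ℓ Φ) (ζ : Kˣ) (hζ : IsPrimitiveRoot ζ ℓ)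
    (hfin : @Module.finrank ↥(modularFunctionFieldFullC K N)
      ↥(modularFunctionFieldFullC K (N * ℓ)) _ _ (algIncl K N ℓ).toModule = ℓ + 1)
    (x : modularFunctionFieldFullC K (N * ℓ)) :
    qExpand K ℓ ((@Algebra.norm ↥(modularFunctionFieldFullC K N) _ _ _ (algIncl K N ℓ) x :
        modularFunctionFieldFullC K N) : LaurentSeries K)
      = qExpand K ℓ (x : LaurentSeries K) *
          ∏ b ∈ Finset.range ℓ, twist (ζ ^ b)
            (swapHom hℓ hℓN H hΦ (natDegree_minpoly_jdl hℓ hℓN H hΦ hfin) x) := by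
  letI := algIncl K N ℓ
  haveI : FiniteDimensional ↥(modularFunctionFieldFullC K N)
      ↥(modularFunctionFieldFullC K (N * ℓ)) := finiteDimensional_algIncl hfin
  haveI : Algebra.IsSeparable ↥(modularFunctionFieldFullC K N)
      ↥(modularFunctionFieldFullC K (N * ℓ)) := isSeparable_algIncl_of hℓ hℓN H ζ hζ hfin
  have key := norm_eq_prod_of_embeddings (baseHom K N ℓ) hfin
    (embFamily hℓ hℓN H hΦ (natDegree_minpoly_jdl hℓ hℓN H hΦ hfin) ζ)
    (fun i a => embFamily_algebraMap hℓ hℓN H hΦ _ ζ hζ.pow_eq_one i a)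
    (embFamily_injective hℓ hℓN H hΦ _ ζ hζ) x
  rw [baseHom_apply] at key
  rw [key, Fin.prod_univ_castSucc, embFamily_last, mul_comm]
  congr 1
  simp_rw [embFamily_castSucc]
  exact Fin.prod_univ_eq_prod_range
    (fun b => twist (ζ ^ b) (swapHom hℓ hℓN H hΦ (natDegree_minpoly_jdl hℓ hℓN H hΦ hfin) x)) ℓ

/-- **NORM-ID** (any characteristic prime to `N ℓ`), twisted-product form. -/
theorem norm_betaHomC (hℓ : ℓ.Prime) (hℓN : ¬ ℓ ∣ N)
    (H : HasModPolys K (N * ℓ)) (ζ : Kˣ) (hζ : IsPrimitiveRoot ζ ℓ)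
    (hfin : @Module.finrank ↥(modularFunctionFieldFullC K N)
      ↥(modularFunctionFieldFullC K (N * ℓ)) _ _ (algIncl K N ℓ).toModule = ℓ + 1)
    (y : modularFunctionFieldFullC K N) :
    qExpand K ℓ ((@Algebra.norm ↥(modularFunctionFieldFullC K N) _ _ _ (algIncl K N ℓ)
        (betaHom K N ℓ y) : modularFunctionFieldFullC K N) : LaurentSeries K)
      = qExpand K (ℓ * ℓ) (y : LaurentSeries K) *
          ∏ b ∈ Finset.range ℓ, twist (ζ ^ b) (y : LaurentSeries K) := by
  obtain ⟨-, Φ, hΦ⟩ := H ℓ hℓ (Dvd.intro_left N rfl)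
  rw [norm_eq_swapC hℓ hℓN H hΦ ζ hζ hfin, coe_betaHom, qExpand_qExpand]
  simp_rw [swapHom_betaHom]

/-- **NORM-ID (closed form), any characteristic prime to `N ℓ`.**  For a prime `ℓ ∤ N`, a field
`K` containing a primitive `ℓ`-th root of unity in which the primes dividing `N ℓ` are
invertible, and `y ∈ F = K(j(q^d) : d ∣ N)`:  `N_{F'/F}(y(q^ℓ)) = kronNorm ℓ y`. -/
theorem norm_betaHom_eq_kronNormC (hℓ : ℓ.Prime) (hℓN : ¬ ℓ ∣ N)
    (hchar : ∀ r : ℕ, r.Prime → r ∣ N * ℓ → (r : K) ≠ 0)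
    (ζ : Kˣ) (hζ : IsPrimitiveRoot ζ ℓ) (y : modularFunctionFieldFullC K N) :
    ((@Algebra.norm ↥(modularFunctionFieldFullC K N) _ _ _ (algIncl K N ℓ)
        (betaHom K N ℓ y) : modularFunctionFieldFullC K N) : LaurentSeries K)
      = Fermat.Agent.S37.H400.kronNorm ℓ (y : LaurentSeries K) := by
  apply qExpand_injective (R := K) ℓ
  rw [norm_betaHomC hℓ hℓN (hasModPolysC K (N * ℓ) hchar) ζ hζ
    (finrank_algInclC K N ℓ hℓ hℓN hchar), Fermat.Agent.S37.H400.kronNorm, map_mul,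
    qExpand_qExpand, qExpand_det_secMat ζ hζ]

/-- `F' / F` is separable (any characteristic prime to `N ℓ`). -/
theorem isSeparable_algIncl (hℓ : ℓ.Prime) (hℓN : ¬ ℓ ∣ N)
    (hchar : ∀ r : ℕ, r.Prime → r ∣ N * ℓ → (r : K) ≠ 0)
    (ζ : Kˣ) (hζ : IsPrimitiveRoot ζ ℓ) :
    @Algebra.IsSeparable ↥(modularFunctionFieldFullC K N)
      ↥(modularFunctionFieldFullC K (N * ℓ)) _ _ (algIncl K N ℓ) :=
  isSeparable_algIncl_of hℓ hℓN (hasModPolysC K (N * ℓ) hchar) ζ hζ
    (finrank_algInclC K N ℓ hℓ hℓN hchar)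

end Main

end Fermat.Agent.Ribet.H376
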