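/-
Row 38 (RIBET), WALL-p, W-EIS leaf HECKE-NODE, core part 2 (helper376): the PLACES half, abstract.

`K` algebraically closed (any characteristic), `F'/F` a finite separable extension of function
fields of one variable over `K`, `β : F →ₐ[K] F'` a second (integral) embedding, `j : F` a
function such that `j ∈ O_w ⇒ β j ∈ O_w` for every place `w` of `F'` ("`β` maps non-cuspidal
places to non-cuspidal places").  Then the correspondence `h ↦ N_{F'/F}(β h)` preserves
"`p ∣ ord_Q h` at every place `Q` with `0 ≤ ord_Q j`" (`dvd_ord_norm_of_dvd`).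
-/
import Fermat.Agent.Lib.FFSep280.Global
import Fermat.Agent.Lib.RR.Ord

set_option autoImplicit false
set_option maxHeartbeats 400000
set_option linter.style.haveILetI false
set_option linter.unusedSectionVars false

noncomputable section

namespace Fermat.Agent.Ribet.H376

open AlgebraicCurve IntermediateField

section Places

variable {K F F' : Type*} [Field K] [Field F] [Field F'] [Algebra K F] [Algebra K F']
  [Algebra F F'] [IsScalarTower K F F'] [FiniteDimensional F F'] [Algebra.IsSeparable F F']
  [IsAlgClosed K]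

/-- The order of `β f` at `w` is a multiple of the order of `f` at the place below `w` along
`β`; in particular divisibility by `p` is inherited. -/
theorem dvd_ord_along (β : F →ₐ[K] F') (hβ : β.toRingHom.IsIntegral) (w : Place K F')
    {p : ℤ} {f : F} (h : p ∣ (w.restrictAlong β hβ).ord f) : p ∣ w.ord (β f) := by
  rw [Place.ord_restrictAlong β hβ w f]
  exact Dvd.dvd.mul_left h _

/-- `j` is regular at the place below `w` along `β` iff `β j` is regular at `w`. -/
theorem mem_restrictAlong_iff (β : F →ₐ[K] F') (hβ : β.toRingHom.IsIntegral) (w : Place K F')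
    (j : F) :
    j ∈ (w.restrictAlong β hβ).toValuationSubring ↔ β j ∈ w.toValuationSubring :=
  Iff.rfl

/-- **The places half of PDIV-KNORM** (abstract form). -/
theorem dvd_ord_norm_of_dvd {x' : F'} (hx' : Transcendental K x') [FiniteDimensional K⟮x'⟯ F']
    (β : F →ₐ[K] F') (hβ : β.toRingHom.IsIntegral) (j : F)
    (hcusp : ∀ w : Place K F', algebraMap F F' j ∈ w.toValuationSubring →
      β j ∈ w.toValuationSubring)
    (p : ℤ) {h : F} (h0 : h ≠ 0)
    (hdiv : ∀ Q : Place K F, 0 ≤ Q.ord j → p ∣ Q.ord h)
    (Q : Place K F) (hQ : 0 ≤ Q.ord j) :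
    p ∣ Q.ord (Algebra.norm F (β h)) := by
  classical
  haveI : HasPrincipalDivisors K F' :=
    Fermat.Agent.Lib.RR.H560.hasPrincipalDivisors (K := K) x' hx'
  have hβh : β h ≠ 0 := fun hz => h0 ((map_eq_zero β).mp hz)
  rw [← Fermat.Agent.Lib.FFSep280.sum_ord_eq_ord_norm_of_isAlgClosed hx' Q (Q.fiber F')
    (fun w => Place.mem_fiber) (β h) hβh]
  refine Finset.dvd_sum fun w hw => ?_
  have hwQ : w.restrict F = Q := Place.mem_fiber.mp hw
  apply dvd_ord_along β hβ w
  apply hdiv
  apply Fermat.Agent.Lib.RR.ord_nonneg_of_mem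
  rw [mem_restrictAlong_iff]
  apply hcusp
  have h1 : j ∈ (w.restrict F).toValuationSubring := by
    rw [hwQ]
    exact Fermat.Agent.Lib.RR.mem_of_ord_nonneg Q hQ
  exact h1

end Places

end Fermat.Agent.Ribet.H376
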