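/-
Row 38 (RIBET), WALL-p, W-EIS leaf HECKE-NODE (`H884/EisSpec.lean`), CLOSED  (helper376).

* `pdivKnorm    : PDivKnormStatement`        (the characteristic-`p` core: the function-level Hecke
  operator `kronNorm ℓ` at level `M` preserves `p`-divisibility of orders away from the cusps);
* `heckeNodeGen : H884.HeckeNodeGenStatement` (VERBATIM, unconditional).

Proof of the core: `kronNorm ℓ h = N_{F'/F}(β h)` (`NormIdC`, any characteristic prime to `M ℓ`),
`F'/F` finite separable, local norm formula `ord_Q N(g) = ∑_{w | Q} ord_w g` (`Lib/FFSep280`),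
`ord_w (β h) = e · ord_{w|β} h`, and `β` maps non-cuspidal places to non-cuspidal places because
`j(q^ℓ)` is integral over `ℤ[j]` (modular polynomial `Φ_ℓ`, monic).
-/
import Fermat.Agent.Ribet.H376.HeckeNode
import Fermat.Agent.Ribet.H376.NormIdC
import Fermat.Agent.Ribet.H376.PDivPlaces
import Fermat.Agent.S18.H65.ModFinite

set_option autoImplicit false
set_option maxHeartbeats 400000
set_option linter.style.haveILetI false
set_option linter.unusedSectionVars false

noncomputable section

namespace Fermat.Agent.Ribet.H376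

open AlgebraicCurve IntermediateField ModularCurve HahnSeries
open Fermat.Agent.S28.H626 Fermat.Agent.S37.H157

section Modular

variable (k : Type*) [Field k] (M ℓ : ℕ) [NeZero M] [NeZero ℓ]

/-- `α : F → F'`, the inclusion, as a `k`-algebra homomorphism. -/
def alphaAlg : ↥(modularFunctionFieldFullC k M) →ₐ[k] ↥(modularFunctionFieldFullC k (M * ℓ)) :=
  IntermediateField.inclusion (full_le_full_mul k M ℓ)

/-- `β : F → F'`, `y ↦ y(q^ℓ)`, as a `k`-algebra homomorphism. -/
def betaAlg : ↥(modularFunctionFieldFullC k M) →ₐ[k] ↥(modularFunctionFieldFullC k (M * ℓ)) where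
  __ := betaHom k M ℓ
  commutes' c := by
    apply Subtype.ext
    show qExpand k ℓ (algebraMap k (LaurentSeries k) c) = algebraMap k (LaurentSeries k) c
    rw [algebraMap_laurentSeries_eq_single, qExpand_single, mul_zero]

theorem betaAlg_apply (y : modularFunctionFieldFullC k M) :
    betaAlg k M ℓ y = betaHom k M ℓ y := rfl

theorem coe_betaAlg (y : modularFunctionFieldFullC k M) :
    ((betaAlg k M ℓ y : modularFunctionFieldFullC k (M * ℓ)) : LaurentSeries k)
      = qExpand k ℓ (y : LaurentSeries k) := rfl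

theorem isScalarTower_algIncl :
    @IsScalarTower k ↥(modularFunctionFieldFullC k M) ↥(modularFunctionFieldFullC k (M * ℓ))
      _ (algIncl k M ℓ).toSMul _ :=
  isScalarTower_along (alphaAlg k M ℓ)

end Modular

section Finite

variable {K F F' : Type*} [Field K] [Field F] [Field F'] [Algebra K F] [Algebra K F']

/-- A `K`-embedding of function fields of one variable is finite (any characteristic; the proof
of `Lib.FF398.finiteAlong_of_functionField` does not use characteristic zero). -/
theorem finiteAlong_of_functionFieldC (φ : F →ₐ[K] F') (j : F) (hj : Transcendental K j)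
    (j' : F') (hj' : Transcendental K j') [FiniteDimensional K⟮j'⟯ F'] :
    FiniteAlong K φ := by
  letI := algebraAlong φ
  show Module.Finite F F'
  have hy : Transcendental K (φ j) := by
    intro h
    exact hj ((isAlgebraic_algHom_iff φ φ.injective).mp h)
  haveI : FiniteDimensional K⟮φ j⟯ F' :=
    Fermat.Agent.S24.FF.finiteDimensional_adjoin_of_transcendental hj' hy
  obtain ⟨S, hS⟩ := (Module.finite_def (R := K⟮φ j⟯) (M := F')).mp inferInstance
  refine Module.finite_def.mpr ⟨S, ?_⟩
  have hle : K⟮φ j⟯ ≤ φ.fieldRange := by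
    rw [adjoin_le_iff]
    rintro _ rfl
    exact ⟨j, rfl⟩
  have key : ∀ x : F', x ∈ Submodule.span K⟮φ j⟯ (S : Set F') →
      x ∈ Submodule.span F (S : Set F') := by
    intro x hx
    induction hx using Submodule.span_induction with
    | mem x hx => exact Submodule.subset_span hx
    | zero => exact zero_mem _
    | add x y _ _ hx hy => exact add_mem hx hy
    | smul e x _ hx =>
      obtain ⟨f, hf⟩ := hle e.2
      have : e • x = f • x := by
        rw [Algebra.smul_def, Algebra.smul_def]
        show (e : F') * x = φ f * x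
        rw [← hf]
        rfl
      rw [this]
      exact Submodule.smul_mem _ _ hx
  rw [eq_top_iff]
  intro x _
  exact key x (by rw [hS]; trivial)

theorem isIntegral_of_functionFieldC (φ : F →ₐ[K] F') (j : F) (hj : Transcendental K j)
    (j' : F') (hj' : Transcendental K j') [FiniteDimensional K⟮j'⟯ F'] :
    φ.toRingHom.IsIntegral := by
  have hfin : FiniteAlong K φ := finiteAlong_of_functionFieldC φ j hj j' hj'
  letI := algebraAlong φ
  haveI : Module.Finite F F' := hfin
  exact fun x => Algebra.IsIntegral.isIntegral (R := F) x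

end Finite

section Cusp

variable {k : Type*} [Field k] {M ℓ : ℕ} [NeZero M] [NeZero ℓ]

/-- `j` as an element of the level-`M ℓ` field is the image of `j` under the inclusion. -/
theorem algebraMap_algIncl_jIn :
    @algebraMap _ _ _ _ (algIncl k M ℓ) (jIn k M) = jIn k (M * ℓ) :=
  Subtype.ext (coe_algebraMap_algIncl _)

/-- `Φ_ℓ(j, j(q^ℓ)) = 0` in the level-`M ℓ` field. -/
theorem ev2_jIn_betaAlg {Φ : Polynomial (Polynomial ℤ)} (hΦ : IsModPoly ℓ Φ) :
    ev2 Φ (jIn k (M * ℓ)) (betaAlg k M ℓ (jIn k M)) = 0 := by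
  have hinj : Function.Injective
      (algebraMap ↥(modularFunctionFieldFullC k (M * ℓ)) (LaurentSeries k)) :=
    (algebraMap ↥(modularFunctionFieldFullC k (M * ℓ)) (LaurentSeries k)).injective
  apply hinj
  rw [map_ev2, map_zero]
  show ev2 Φ (jqModC k) (qExpand k ℓ (jqModC k)) = 0
  have := ev2_jd_up (k := k) hΦ 1
  rwa [jd_one, jd_congr k (one_mul ℓ)] at this

/-- **Non-cuspidal places go to non-cuspidal places**: if `j` is regular at a place `w` of the
level-`M ℓ` field, then so is `j(q^ℓ)` (integrality over `ℤ[j]`). -/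
theorem betaAlg_jIn_mem {Φ : Polynomial (Polynomial ℤ)} (hΦ : IsModPoly ℓ Φ)
    (w : Place k ↥(modularFunctionFieldFullC k (M * ℓ)))
    (hw : jIn k (M * ℓ) ∈ w.toValuationSubring) :
    betaAlg k M ℓ (jIn k M) ∈ w.toValuationSubring := by
  set O := w.toValuationSubring with hO
  let x : O := ⟨jIn k (M * ℓ), hw⟩
  have hint : IsIntegral O (betaAlg k M ℓ (jIn k M)) := by
    refine ⟨spec Φ x, spec_monic hΦ.monic x, ?_⟩
    rw [Polynomial.eval₂_eq_eval_map, map_spec, eval_spec]
    exact ev2_jIn_betaAlg hΦ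
  obtain ⟨y, hy⟩ := (IsIntegrallyClosed.isIntegral_iff
    (R := O) (K := ↥(modularFunctionFieldFullC k (M * ℓ)))).mp hint
  rw [← hy]
  exact y.2

end Cusp

section Core

open Fermat.Agent.Ribet.H884

/-- **PDIV-KNORM**: the characteristic-`p` core of HECKE-NODE. -/
theorem pdivKnorm : PDivKnormStatement := by
  intro k _ _ p M ℓ _ _ _ hp hℓ hℓp hpM hℓM r hr
  obtain ⟨h, hhr, h0, hdiv⟩ := hr
  -- the primes dividing `M ℓ` are invertible in `k`
  have hchar : ∀ q : ℕ, q.Prime → q ∣ M * ℓ → (q : k) ≠ 0 := by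
    intro q hq hqd hq0
    have h1 : p ∣ q := (CharP.cast_eq_zero_iff k p q).mp hq0
    have h2 : p = q := (Nat.prime_dvd_prime_iff_eq hp hq).mp h1
    subst h2
    rcases (Nat.Prime.dvd_mul hp).mp hqd with h3 | h3
    · exact hpM h3
    · exact hℓp ((Nat.prime_dvd_prime_iff_eq hp hℓ).mp h3).symm
  have hℓk : ((ℓ : ℕ) : k) ≠ 0 := hchar ℓ hℓ (Dvd.intro_left M rfl)
  haveI : NeZero ((ℓ : ℕ) : k) := ⟨hℓk⟩
  obtain ⟨ζ, hζ⟩ := exists_primitiveRoot_unit k ℓ hℓ.ne_zero
  obtain ⟨-, Φ, hΦ⟩ := hasModPolysC k (M * ℓ) hchar ℓ hℓ (Dvd.intro_left M rfl)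
  -- the extension `F' / F`
  letI := algIncl k M ℓ
  haveI : IsScalarTower k ↥(modularFunctionFieldFullC k M)
      ↥(modularFunctionFieldFullC k (M * ℓ)) := isScalarTower_algIncl k M ℓ
  haveI : FiniteDimensional ↥(modularFunctionFieldFullC k M)
      ↥(modularFunctionFieldFullC k (M * ℓ)) :=
    finiteDimensional_algIncl (finrank_algInclC k M ℓ hℓ hℓM hchar)
  haveI : Algebra.IsSeparable ↥(modularFunctionFieldFullC k M)
      ↥(modularFunctionFieldFullC k (M * ℓ)) := isSeparable_algIncl hℓ hℓM hchar ζ hζ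
  -- `F'` is a function field of one variable
  obtain ⟨hx', hfin'⟩ := Fermat.Agent.S18.H65.modFinite' k (M * ℓ) hchar
  haveI := hfin'
  have hj : Transcendental k (jIn k M) :=
    Fermat.Agent.S18.H65.transcendental_subtype _ _
      (Fermat.Agent.S18.H65.transcendental_jqModC k)
  have hβ : (betaAlg k M ℓ).toRingHom.IsIntegral :=
    isIntegral_of_functionFieldC (betaAlg k M ℓ) (jIn k M) hj _ hx'
  -- the norm
  refine ⟨Algebra.norm ↥(modularFunctionFieldFullC k M) (betaAlg k M ℓ h), ?_, ?_, ?_⟩
  · rw [← hhr]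
    exact norm_betaHom_eq_kronNormC hℓ hℓM hchar ζ hζ h
  · rw [Ne, Algebra.norm_eq_zero_iff]
    exact fun hz => h0 ((map_eq_zero (betaAlg k M ℓ)).mp hz)
  · intro Q hQ
    refine dvd_ord_norm_of_dvd hx' (betaAlg k M ℓ) hβ (jIn k M) ?_ (p : ℤ) h0 hdiv Q hQ
    intro w hw
    rw [algebraMap_algIncl_jIn] at hw
    exact betaAlg_jIn_mem hΦ w hw

/-- **HECKE-NODE** (`H884.HeckeNodeGenStatement`, verbatim, unconditional). -/
theorem heckeNodeGen : HeckeNodeGenStatement :=
  heckeNodeGen_of_pdivKnorm pdivKnorm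

end Core

end Fermat.Agent.Ribet.H376
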